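/-
CFT / CORE-A1 (task 195, helper42): the cyclotomic character of `Gal(L/ℚ)` for a number field
`L`, Galois over `ℚ`, containing a primitive `p`-th root of unity `ζ`, and the additivity of the
cocycle on its kernel.
-/
import Mathlib
import Fermat.Agent.Lib.Frob.Wiring
import Fermat.Agent.CFT.Stick.Jacobi
set_option autoImplicit false
open NumberField
open scoped Pointwise
namespace Fermat.Agent.CFT.Core
section
variable {p : ℕ} [Fact p.Prime] {L : Type} [Field L] [NumberField L] [IsGalois ℚ L] {ζ : L}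

/-- Exponents of a primitive `p`-th root of unity are determined modulo `p`. -/
theorem chi_natCast_eq_of_pow_eq (hζ : IsPrimitiveRoot ζ p) {a b : ℕ} (h : ζ ^ a = ζ ^ b) :
    (a : ZMod p) = (b : ZMod p) := by
  have hfin : IsOfFinOrder ζ :=
    isOfFinOrder_iff_pow_eq_one.mpr ⟨p, (Fact.out : p.Prime).pos, hζ.pow_eq_one⟩
  have h1 := hfin.pow_eq_pow_iff_modEq.mp h
  rw [← hζ.eq_orderOf] at h1
  exact (ZMod.natCast_eq_natCast_iff a b p).mpr h1

/-- The value of the cyclotomic character is read off from the action on `ζ`. -/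
theorem chi_eq_natCast (hζ : IsPrimitiveRoot ζ p) {χ : Gal(L/ℚ) → ZMod p}
    (hχ : ∀ g, g ζ = ζ ^ (χ g).val) (g : Gal(L/ℚ)) {k : ℕ} (h : g ζ = ζ ^ k) :
    χ g = (k : ZMod p) := by
  haveI : NeZero p := ⟨(Fact.out : p.Prime).ne_zero⟩
  have h1 := chi_natCast_eq_of_pow_eq hζ ((hχ g).symm.trans h)
  rwa [ZMod.natCast_zmod_val] at h1

theorem isCyclotomicExtension_adjoin (hζ : IsPrimitiveRoot ζ p) :
    IsCyclotomicExtension {p} ℚ (IntermediateField.adjoin ℚ {ζ}) := by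
  haveI : NeZero p := ⟨(Fact.out : p.Prime).ne_zero⟩
  exact hζ.intermediateField_adjoin_isCyclotomicExtension ℚ

theorem chi_mul (hζ : IsPrimitiveRoot ζ p) {χ : Gal(L/ℚ) → ZMod p}
    (hχ : ∀ g, g ζ = ζ ^ (χ g).val) (g h : Gal(L/ℚ)) : χ (g * h) = χ g * χ h := by
  haveI : NeZero p := ⟨(Fact.out : p.Prime).ne_zero⟩
  have h1 : (g * h) ζ = ζ ^ ((χ g).val * (χ h).val) := by
    rw [AlgEquiv.mul_apply, hχ h, map_pow, hχ g, ← pow_mul]
  rw [chi_eq_natCast hζ hχ (g * h) h1, Nat.cast_mul, ZMod.natCast_zmod_val,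
    ZMod.natCast_zmod_val]

theorem chi_one (hζ : IsPrimitiveRoot ζ p) {χ : Gal(L/ℚ) → ZMod p}
    (hχ : ∀ g, g ζ = ζ ^ (χ g).val) : χ 1 = 1 := by
  have h1 : (1 : Gal(L/ℚ)) ζ = ζ ^ 1 := by rw [pow_one]; rfl
  rw [chi_eq_natCast hζ hχ 1 h1, Nat.cast_one]

theorem chi_ne_zero (hζ : IsPrimitiveRoot ζ p) {χ : Gal(L/ℚ) → ZMod p}
    (hχ : ∀ g, g ζ = ζ ^ (χ g).val) (g : Gal(L/ℚ)) : χ g ≠ 0 := by
  intro h0
  have h1 : g ζ = 1 := by rw [hχ g, h0, ZMod.val_zero, pow_zero]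
  have h2 : ζ = 1 := g.injective (h1.trans (map_one g).symm)
  exact hζ.ne_one (Fact.out : p.Prime).one_lt h2

theorem chi_eq_one_iff (hζ : IsPrimitiveRoot ζ p) {χ : Gal(L/ℚ) → ZMod p}
    (hχ : ∀ g, g ζ = ζ ^ (χ g).val) (g : Gal(L/ℚ)) :
    χ g = 1 ↔ ∀ x ∈ IntermediateField.adjoin ℚ {ζ}, g x = x := by
  constructor
  · intro h1
    have hgζ : g ζ = ζ := by rw [hχ g, h1, ZMod.val_one, pow_one]
    intro x hx
    induction hx using IntermediateField.adjoin_induction with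
    | mem y hy =>
      rw [Set.mem_singleton_iff] at hy
      rw [hy, hgζ]
    | algebraMap q => exact g.commutes q
    | add y z _ _ hy hz => rw [map_add, hy, hz]
    | inv y _ hy => rw [map_inv₀, hy]
    | mul y z _ _ hy hz => rw [map_mul, hy, hz]
  · intro h
    have hgζ : g ζ = ζ ^ 1 := by
      rw [pow_one]
      exact h ζ (IntermediateField.mem_adjoin_simple_self ℚ ζ)
    rw [chi_eq_natCast hζ hχ g hgζ, Nat.cast_one]

theorem exists_chi_eq (hζ : IsPrimitiveRoot ζ p) {χ : Gal(L/ℚ) → ZMod p}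
    (hχ : ∀ g, g ζ = ζ ^ (χ g).val) (c : (ZMod p)ˣ) : ∃ t : Gal(L/ℚ), χ t = c := by
  haveI : NeZero p := ⟨(Fact.out : p.Prime).ne_zero⟩
  have hpos : 0 < p := (Fact.out : p.Prime).pos
  have hcop : Nat.Coprime (c : ZMod p).val p := ZMod.val_coe_unit_coprime c
  have hζ' : IsPrimitiveRoot (ζ ^ (c : ZMod p).val) p := hζ.pow_of_coprime _ hcop
  have hconj : IsConjRoot ℚ (ζ ^ (c : ZMod p).val) ζ := by
    change minpoly ℚ (ζ ^ (c : ZMod p).val) = minpoly ℚ ζ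
    rw [← Polynomial.cyclotomic_eq_minpoly_rat hζ' hpos,
      ← Polynomial.cyclotomic_eq_minpoly_rat hζ hpos]
  obtain ⟨t, ht⟩ := hconj.exists_algEquiv
  refine ⟨t, ?_⟩
  rw [chi_eq_natCast hζ hχ t ht, ZMod.natCast_zmod_val]

theorem b_pow (hζ : IsPrimitiveRoot ζ p) {χ b : Gal(L/ℚ) → ZMod p}
    (hχ : ∀ g, g ζ = ζ ^ (χ g).val)
    (hbm : ∀ g h, χ g = 1 → χ h = 1 → b (g * h) = b g + b h) (g : Gal(L/ℚ)) (hg : χ g = 1)
    (k : ℕ) : χ (g ^ k) = 1 ∧ b (g ^ k) = k * b g := by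
  induction k with
  | zero =>
    have h1 : χ (1 : Gal(L/ℚ)) = 1 := chi_one hζ hχ
    have h2 := hbm 1 1 h1 h1
    rw [mul_one] at h2
    refine ⟨by rw [pow_zero]; exact h1, ?_⟩
    rw [pow_zero, Nat.cast_zero, zero_mul]
    exact left_eq_add.mp h2
  | succ k ih =>
    obtain ⟨ih1, ih2⟩ := ih
    refine ⟨by rw [pow_succ, chi_mul hζ hχ, ih1, hg, mul_one], ?_⟩
    rw [pow_succ, hbm _ _ ih1 hg, ih2, Nat.cast_succ, add_mul, one_mul]

end
end Fermat.Agent.CFT.Core
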