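import Mathlib
import Fermat.Agent.Lib.Frob.Wiring
import Fermat.Agent.CFT.Stick.Jacobi

/-!
# CORE-B: Frobenius bookkeeping over `ℚ(ζ)`

`L` a number field, Galois over `ℚ`, `ζ ∈ L` a primitive `p`-th root of unity,
`K = IntermediateField.adjoin ℚ {ζ}`.

* `absNorm_under_adjoin`: if the arithmetic Frobenius `g ∈ Gal(L/ℚ)` at a prime `P ∋ q` of `L`
  fixes `ζ`, then `P ∩ 𝓞 K` has absolute norm `q` (degree-one prime of `K`).
* `isArithFrobAt_adjoin`: an element `σ ∈ Gal(L/K)` which is an arithmetic Frobenius at `P` over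
  `ℤ` is an arithmetic Frobenius at `P` over `𝓞 K`, provided `P ∩ 𝓞 K` has norm `q`.
* `under_smul_adjoin`: contraction to `𝓞 K` commutes with the Galois action.
-/

set_option autoImplicit false
set_option linter.unusedSectionVars false

open NumberField
open scoped Pointwise

namespace Fermat.Agent.CFT.Core

/-- A finite field in which `q = 0` (`q` prime) and every element satisfies `a ^ q = a` has
exactly `q` elements. -/
theorem frob_card_eq_of_pow_eq {k : Type*} [Field k] [Finite k] {q : ℕ} (hq : q.Prime)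
    (hq0 : (q : k) = 0) (h : ∀ a : k, a ^ q = a) : Nat.card k = q := by
  classical
  have := Fintype.ofFinite k
  have hle : Nat.card k ≤ q := by
    have hne : (Polynomial.X ^ q - Polynomial.X : Polynomial k) ≠ 0 :=
      FiniteField.X_pow_card_sub_X_ne_zero k hq.one_lt
    have hdeg : (Polynomial.X ^ q - Polynomial.X : Polynomial k).natDegree = q :=
      FiniteField.X_pow_card_sub_X_natDegree_eq k hq.one_lt
    have := Polynomial.card_le_degree_of_subset_roots
      (p := (Polynomial.X ^ q - Polynomial.X : Polynomial k)) (Z := Finset.univ) (by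
        intro a _
        rw [Polynomial.mem_roots hne]
        simp [h a])
    rw [hdeg] at this
    rw [Nat.card_eq_fintype_card]
    simpa using this
  have hdvd : q ∣ Nat.card k := by
    have : Fact q.Prime := ⟨hq⟩
    have h1 : addOrderOf (1 : k) = q :=
      addOrderOf_eq_prime (by rw [nsmul_eq_mul, mul_one]; exact hq0) one_ne_zero
    rw [← h1]
    exact addOrderOf_dvd_natCard (1 : k)
  exact le_antisymm hle (Nat.le_of_dvd Nat.card_pos hdvd)

section

variable {p : ℕ} [Fact p.Prime] {L : Type} [Field L] [NumberField L] [IsGalois ℚ L] {ζ : L}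

/-- An automorphism fixing `ζ` fixes `ℚ(ζ)` pointwise. -/
theorem frob_fix_adjoin (g : Gal(L/ℚ)) (hg : g ζ = ζ)
    (x : IntermediateField.adjoin ℚ {ζ}) :
    g (algebraMap (IntermediateField.adjoin ℚ {ζ}) L x) =
      algebraMap (IntermediateField.adjoin ℚ {ζ}) L x := by
  have hle : IntermediateField.adjoin ℚ {ζ} ≤
      IntermediateField.fixedField (Subgroup.zpowers g) := by
    rw [IntermediateField.adjoin_le_iff]
    intro y hy
    rw [Set.mem_singleton_iff] at hy
    subst hy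
    rw [SetLike.mem_coe, IntermediateField.mem_fixedField_iff]
    intro f hf
    obtain ⟨n, rfl⟩ := Subgroup.mem_zpowers_iff.mp hf
    have : ∀ m : ℕ, (g ^ m) y = y := by
      intro m
      induction m with
      | zero => simp
      | succ m ih => rw [pow_succ, AlgEquiv.mul_apply, hg, ih]
    rcases Int.eq_nat_or_neg n with ⟨m, rfl | rfl⟩
    · simpa using this m
    · rw [zpow_neg, zpow_natCast]
      have h2 := this m
      show (g ^ m).symm y = y
      rw [AlgEquiv.symm_apply_eq]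
      exact h2.symm
  have hx := hle x.2
  rw [IntermediateField.mem_fixedField_iff] at hx
  exact hx g (Subgroup.mem_zpowers g)

theorem absNorm_under_adjoin (hζ : IsPrimitiveRoot ζ p) {χ : Gal(L/ℚ) → ZMod p}
    (hχ : ∀ g, g ζ = ζ ^ (χ g).val) {q : ℕ} (hq : q.Prime) (P : Ideal (𝓞 L)) [P.IsPrime]
    (hqP : (q : 𝓞 L) ∈ P) (g : Gal(L/ℚ)) (hg : IsArithFrobAt ℤ g P) (hg1 : χ g = 1) :
    Ideal.absNorm (P.under (𝓞 (IntermediateField.adjoin ℚ {ζ}))) = q := by
  have _hζ := hζ
  have hp1 : Fact (1 < p) := ⟨(Fact.out : p.Prime).one_lt⟩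
  have hgζ : g ζ = ζ := by
    rw [hχ g, hg1, ZMod.val_one, pow_one]
  set 𝔮 := P.under (𝓞 (IntermediateField.adjoin ℚ {ζ})) with h𝔮
  have hcard : Nat.card (ℤ ⧸ P.under ℤ) = q :=
    Fermat.Agent.Lib.Frob.natCard_quotient_under_eq L hq P hqP
  -- the Frobenius congruence on `𝓞 K`
  have key : ∀ x : 𝓞 (IntermediateField.adjoin ℚ {ζ}), x ^ q - x ∈ 𝔮 := by
    intro x
    have h1 := hg (algebraMap (𝓞 (IntermediateField.adjoin ℚ {ζ})) (𝓞 L) x)
    rw [hcard] at h1
    have h2 : (MulSemiringAction.toAlgHom ℤ (𝓞 L) g)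
        (algebraMap (𝓞 (IntermediateField.adjoin ℚ {ζ})) (𝓞 L) x) =
        algebraMap (𝓞 (IntermediateField.adjoin ℚ {ζ})) (𝓞 L) x := by
      apply RingOfIntegers.ext
      exact frob_fix_adjoin g hgζ x
    rw [h2, ← map_pow, ← map_sub] at h1
    rw [h𝔮, Ideal.under_def, Ideal.mem_comap, ← neg_sub, map_neg]
    exact neg_mem h1
  have hq𝔮 : (q : 𝓞 (IntermediateField.adjoin ℚ {ζ})) ∈ 𝔮 := by
    rw [h𝔮, Ideal.under_def, Ideal.mem_comap, map_natCast]
    exact hqP
  have h𝔮prime : 𝔮.IsPrime := Ideal.comap_isPrime _ P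
  have h𝔮ne : 𝔮 ≠ ⊥ := by
    intro h
    rw [h, Ideal.mem_bot] at hq𝔮
    exact hq.ne_zero (by exact_mod_cast hq𝔮)
  have h𝔮max : 𝔮.IsMaximal := Ring.DimensionLEOne.maximalOfPrime h𝔮ne h𝔮prime
  let _ := Ideal.Quotient.field 𝔮
  have hfin : Finite (𝓞 (IntermediateField.adjoin ℚ {ζ}) ⧸ 𝔮) :=
    Ideal.finiteQuotientOfFreeOfNeBot _ h𝔮ne
  rw [Ideal.absNorm_apply, Submodule.cardQuot_apply]
  refine frob_card_eq_of_pow_eq hq ?_ ?_
  · rw [← map_natCast (Ideal.Quotient.mk 𝔮), Ideal.Quotient.eq_zero_iff_mem]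
    exact hq𝔮
  · intro a
    obtain ⟨x, rfl⟩ := Ideal.Quotient.mk_surjective a
    rw [← map_pow, ← sub_eq_zero, ← map_sub, Ideal.Quotient.eq_zero_iff_mem]
    exact key x

theorem isArithFrobAt_adjoin {q : ℕ} (hq : q.Prime) (P : Ideal (𝓞 L)) [P.IsPrime]
    (hqP : (q : 𝓞 L) ∈ P) (σ : Gal(L/(IntermediateField.adjoin ℚ {ζ})))
    (hσ : IsArithFrobAt ℤ (σ.restrictScalars ℚ) P)
    (hN : Ideal.absNorm (P.under (𝓞 (IntermediateField.adjoin ℚ {ζ}))) = q) :
    IsArithFrobAt (𝓞 (IntermediateField.adjoin ℚ {ζ})) σ P := by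
  have hcard : Nat.card (ℤ ⧸ P.under ℤ) = q :=
    Fermat.Agent.Lib.Frob.natCard_quotient_under_eq L hq P hqP
  have hcard' : Nat.card (𝓞 (IntermediateField.adjoin ℚ {ζ}) ⧸
      P.under (𝓞 (IntermediateField.adjoin ℚ {ζ}))) = q := by
    rw [← hN, Ideal.absNorm_apply, Submodule.cardQuot_apply]
  intro x
  have h1 := hσ x
  rw [hcard] at h1
  rw [hcard']
  exact h1

theorem under_smul_adjoin [Normal ℚ (IntermediateField.adjoin ℚ {ζ})] (t : Gal(L/ℚ))
    (P : Ideal (𝓞 L)) :
    (t • P).under (𝓞 (IntermediateField.adjoin ℚ {ζ})) =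
      (P.under (𝓞 (IntermediateField.adjoin ℚ {ζ}))).map
        (galRestrict ℤ ℚ (IntermediateField.adjoin ℚ {ζ}) (𝓞 (IntermediateField.adjoin ℚ {ζ}))
          (AlgEquiv.restrictNormalHom (IntermediateField.adjoin ℚ {ζ}) t)) := by
  set e := galRestrict ℤ ℚ (IntermediateField.adjoin ℚ {ζ})
    (𝓞 (IntermediateField.adjoin ℚ {ζ}))
    (AlgEquiv.restrictNormalHom (IntermediateField.adjoin ℚ {ζ}) t) with he
  have hA : ∀ y : 𝓞 (IntermediateField.adjoin ℚ {ζ}),
      algebraMap (𝓞 (IntermediateField.adjoin ℚ {ζ})) (𝓞 L) (e y) =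
        t • algebraMap (𝓞 (IntermediateField.adjoin ℚ {ζ})) (𝓞 L) y := by
    intro y
    apply RingOfIntegers.ext
    have h1 := algebraMap_galRestrict_apply ℤ (K := ℚ) (L := IntermediateField.adjoin ℚ {ζ})
      (B := 𝓞 (IntermediateField.adjoin ℚ {ζ}))
      (AlgEquiv.restrictNormalHom (IntermediateField.adjoin ℚ {ζ}) t) y
    have h2 := AlgEquiv.restrictNormal_commutes t (IntermediateField.adjoin ℚ {ζ})
      (algebraMap (𝓞 (IntermediateField.adjoin ℚ {ζ})) (IntermediateField.adjoin ℚ {ζ}) y)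
    show algebraMap (IntermediateField.adjoin ℚ {ζ}) L
      (algebraMap (𝓞 (IntermediateField.adjoin ℚ {ζ})) (IntermediateField.adjoin ℚ {ζ}) (e y)) = _
    rw [he, h1]
    exact h2
  ext x
  rw [Ideal.mem_map_of_equiv]
  constructor
  · intro hx
    refine ⟨e.symm x, ?_, by simp⟩
    rw [Ideal.under_def, Ideal.mem_comap] at hx ⊢
    have h3 := hA (e.symm x)
    rw [AlgEquiv.apply_symm_apply] at h3
    rw [h3, Ideal.smul_mem_pointwise_smul_iff] at hx
    exact hx
  · rintro ⟨y, hy, rfl⟩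
    rw [Ideal.under_def, Ideal.mem_comap] at hy ⊢
    rw [hA y, Ideal.smul_mem_pointwise_smul_iff]
    exact hy

end

end Fermat.Agent.CFT.Core
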