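import Mathlib
import Fermat.Agent.Lib.Frob.Wiring
import Fermat.Agent.CFT.Stick.Jacobi

/-!
# CORE-A3: the Galois group of `L / ℚ(ζ)`

`L` a number field, Galois over `ℚ`, `ζ ∈ L` a primitive `p`-th root of unity,
`χ b : Gal(L/ℚ) → ZMod p` the cyclotomic character and the cocycle.
-/

set_option autoImplicit false
set_option linter.unusedSectionVars false
set_option linter.style.haveILetI false
open NumberField
open scoped Pointwise

namespace Fermat.Agent.CFT.Core

section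

variable {p : ℕ} [Fact p.Prime] {L : Type} [Field L] [NumberField L] [IsGalois ℚ L] {ζ : L}

/-- an automorphism fixing `ζ` fixes `ℚ(ζ)` pointwise -/
theorem gal_fixes_adjoin (g : Gal(L/ℚ)) (hg : g ζ = ζ) :
    ∀ x ∈ IntermediateField.adjoin ℚ {ζ}, g x = x := by
  intro x hx
  induction hx using IntermediateField.adjoin_induction with
  | mem x hx =>
    rw [Set.mem_singleton_iff] at hx
    rw [hx, hg]
  | algebraMap x => exact g.commutes x
  | add x y _ _ hx hy => rw [map_add, hx, hy]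
  | inv x _ hx => rw [map_inv₀, hx]
  | mul x y _ _ hx hy => rw [map_mul, hx, hy]

/-- `χ g = 1` iff `g` fixes `ζ` -/
theorem gal_chi_eq_one_iff (hζ : IsPrimitiveRoot ζ p) {χ : Gal(L/ℚ) → ZMod p}
    (hχ : ∀ g, g ζ = ζ ^ (χ g).val) (g : Gal(L/ℚ)) : χ g = 1 ↔ g ζ = ζ := by
  have hp : p.Prime := Fact.out
  haveI : Fact (1 < p) := ⟨hp.one_lt⟩
  constructor
  · intro h
    rw [hχ g, h, ZMod.val_one, pow_one]
  · intro h
    have h1 : ζ ^ (χ g).val = ζ ^ 1 := by rw [← hχ g, h, pow_one]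
    have h2 : (χ g).val = 1 := hζ.pow_inj (ZMod.val_lt _) hp.one_lt h1
    have h3 : ((χ g).val : ZMod p) = ((1 : ℕ) : ZMod p) := by rw [h2]
    rwa [ZMod.natCast_zmod_val, Nat.cast_one] at h3

theorem exists_restrictScalars_eq (hζ : IsPrimitiveRoot ζ p) {χ : Gal(L/ℚ) → ZMod p}
    (hχ : ∀ g, g ζ = ζ ^ (χ g).val) (g : Gal(L/ℚ)) (hg : χ g = 1) :
    ∃ σ : Gal(L/(IntermediateField.adjoin ℚ {ζ})), σ.restrictScalars ℚ = g := by
  have hfix := gal_fixes_adjoin g ((gal_chi_eq_one_iff hζ hχ g).mp hg)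
  have hmem : g ∈ (IntermediateField.adjoin ℚ {ζ}).fixingSubgroup := by
    rw [IntermediateField.mem_fixingSubgroup_iff]
    exact hfix
  refine ⟨IntermediateField.fixingSubgroupEquiv (IntermediateField.adjoin ℚ {ζ}) ⟨g, hmem⟩, ?_⟩
  ext x
  rfl

/-- `χ` is trivial on the image of `Gal(L/ℚ(ζ))` -/
theorem chi_restrictScalars (hζ : IsPrimitiveRoot ζ p) {χ : Gal(L/ℚ) → ZMod p}
    (hχ : ∀ g, g ζ = ζ ^ (χ g).val) (σ : Gal(L/(IntermediateField.adjoin ℚ {ζ}))) :
    χ (σ.restrictScalars ℚ) = 1 := by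
  rw [gal_chi_eq_one_iff hζ hχ]
  have h := σ.commutes ⟨ζ, IntermediateField.mem_adjoin_simple_self ℚ ζ⟩
  exact h

theorem restrictScalars_injective_adjoin :
    Function.Injective (fun σ : Gal(L/(IntermediateField.adjoin ℚ {ζ})) => σ.restrictScalars ℚ) := by
  intro σ τ h
  ext x
  have := congrArg (fun g : Gal(L/ℚ) => g x) h
  exact this

theorem exists_beta (hζ : IsPrimitiveRoot ζ p) {χ b : Gal(L/ℚ) → ZMod p}
    (hχ : ∀ g, g ζ = ζ ^ (χ g).val)
    (hbm : ∀ g h, χ g = 1 → χ h = 1 → b (g * h) = b g + b h) :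
    ∃ β : Gal(L/(IntermediateField.adjoin ℚ {ζ})) →* Multiplicative (ZMod p),
      ∀ σ, β σ = Multiplicative.ofAdd (b (σ.restrictScalars ℚ)) := by
  have hb1 : b 1 = 0 := by
    have h1 : χ (1 : Gal(L/ℚ)) = 1 := by
      rw [gal_chi_eq_one_iff hζ hχ]; rfl
    have := hbm 1 1 h1 h1
    rw [mul_one] at this
    have h2 : b 1 + 0 = b 1 + b 1 := by rw [add_zero]; exact this
    exact (add_left_cancel h2).symm
  refine ⟨{ toFun := fun σ => Multiplicative.ofAdd (b (σ.restrictScalars ℚ))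
            map_one' := ?_
            map_mul' := ?_ }, fun σ => rfl⟩
  · show Multiplicative.ofAdd (b ((1 : Gal(L/(IntermediateField.adjoin ℚ {ζ}))).restrictScalars ℚ)) = 1
    have : (1 : Gal(L/(IntermediateField.adjoin ℚ {ζ}))).restrictScalars ℚ = 1 := rfl
    rw [this, hb1]; rfl
  · intro σ τ
    show Multiplicative.ofAdd (b ((σ * τ).restrictScalars ℚ)) =
      Multiplicative.ofAdd (b (σ.restrictScalars ℚ)) * Multiplicative.ofAdd (b (τ.restrictScalars ℚ))
    have : (σ * τ).restrictScalars ℚ = σ.restrictScalars ℚ * τ.restrictScalars ℚ := rfl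
    rw [this, hbm _ _ (chi_restrictScalars hζ hχ σ) (chi_restrictScalars hζ hχ τ)]
    rfl

theorem finrank_adjoin (hζ : IsPrimitiveRoot ζ p) {χ b : Gal(L/ℚ) → ZMod p}
    (hχ : ∀ g, g ζ = ζ ^ (χ g).val)
    (hbm : ∀ g h, χ g = 1 → χ h = 1 → b (g * h) = b g + b h)
    (hinj : ∀ g, χ g = 1 → b g = 0 → g = 1) (hne : ∃ g, χ g = 1 ∧ b g ≠ 0) :
    Module.finrank (IntermediateField.adjoin ℚ {ζ}) L = p := by
  have hp : p.Prime := Fact.out
  obtain ⟨β, hβ⟩ := exists_beta hζ hχ hbm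
  have hβinj : Function.Injective β := by
    rw [injective_iff_map_eq_one]
    intro σ hσ
    rw [hβ] at hσ
    have h0 : b (σ.restrictScalars ℚ) = 0 := hσ
    have h1 := hinj _ (chi_restrictScalars hζ hχ σ) h0
    apply restrictScalars_injective_adjoin
    exact h1
  have hcard : Nat.card β.range = Nat.card Gal(L/(IntermediateField.adjoin ℚ {ζ})) :=
    (Nat.card_congr (MonoidHom.ofInjective hβinj).toEquiv).symm
  have hdvd : Nat.card β.range ∣ p := by
    have := Subgroup.card_subgroup_dvd_card β.range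
    rwa [Nat.card_eq_fintype_card (α := Multiplicative (ZMod p)),
      Fintype.card_multiplicative, ZMod.card] at this
  have hne1 : Nat.card β.range ≠ 1 := by
    intro h1
    obtain ⟨g, hg, hbg⟩ := hne
    obtain ⟨σ, rfl⟩ := exists_restrictScalars_eq hζ hχ g hg
    have hbot : β.range = ⊥ := Subgroup.card_eq_one.mp h1
    have hmem : β σ ∈ β.range := ⟨σ, rfl⟩
    rw [hbot, Subgroup.mem_bot, hβ] at hmem
    exact hbg hmem
  have hcp : Nat.card β.range = p := by
    rcases (Nat.dvd_prime hp).mp hdvd with h | h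
    · exact absurd h hne1
    · exact h
  rw [← IsGalois.card_aut_eq_finrank, ← hcard, hcp]

theorem inertia_adjoin_eq_bot (hζ : IsPrimitiveRoot ζ p) {χ : Gal(L/ℚ) → ZMod p}
    (hχ : ∀ g, g ζ = ζ ^ (χ g).val)
    (hunr : ∀ P : Ideal (𝓞 L), P.IsPrime → P ≠ ⊥ → ∀ g : Gal(L/ℚ), χ g = 1 →
      (∀ x : 𝓞 L, g • x - x ∈ P) → g = 1)
    (P : Ideal (𝓞 L)) (hP : P.IsPrime) (hP0 : P ≠ ⊥) :
    P.inertia Gal(L/(IntermediateField.adjoin ℚ {ζ})) = ⊥ := by
  rw [eq_bot_iff]
  intro σ hσ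
  rw [Subgroup.mem_bot]
  have h1 : ∀ x : 𝓞 L, (σ.restrictScalars ℚ) • x - x ∈ P := by
    intro x
    have h2 : σ • x - x ∈ P := hσ x
    have h3 : (σ.restrictScalars ℚ) • x = σ • x := by
      apply RingOfIntegers.ext
      rfl
    rw [h3]; exact h2
  have h4 := hunr P hP hP0 (σ.restrictScalars ℚ) (chi_restrictScalars hζ hχ σ) h1
  apply restrictScalars_injective_adjoin
  exact h4

end

end Fermat.Agent.CFT.Core
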