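import Mathlib
import Fermat.Agent.Lib.Frob.Wiring
import Fermat.Agent.CFT.Defs
import Fermat.Agent.CFT.Stick.Consumer
import Fermat.Agent.CFT.Core.Chi
import Fermat.Agent.CFT.Core.Gal
import Fermat.Agent.CFT.Core.Frob

/-!
# CFT project: the core contradiction (assembly of FROB + STICK + RECIP)

`core_false`: there is no number field `L`, Galois over `ℚ`, containing a primitive `p`-th root
of unity `ζ` (`p` an odd prime), cyclic of degree `p` and everywhere unramified over `ℚ(ζ)`, on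
which `Gal(ℚ(ζ)/ℚ)` acts through the inverse of the cyclotomic character.
-/

set_option autoImplicit false

open NumberField
open scoped Pointwise

namespace Fermat.Agent.CFT.Core

section
variable {p : ℕ} [Fact p.Prime]

/-- The Stickelberger eigenvalue `∑_{0 < c < p/2} c` is nonzero modulo an odd prime `p`. -/
theorem sum_exponentSet_ne_zero (hp2 : p ≠ 2) :
    (∑ c ∈ Stickelberger.exponentSet p, (c : ZMod p)) ≠ 0 := by
  have hp : p.Prime := Fact.out
  rw [← Nat.cast_sum]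
  intro h
  rw [ZMod.natCast_eq_zero_iff] at h
  exact Stick.not_dvd_eigenvalueScalar hp hp2 h

/-- **Core contradiction.** -/
theorem core_false (hp2 : p ≠ 2)
    (hF : Fermat.Agent.Lib.Frob.PrimeArithFrobGenerates) (hR : RecipStatement p)
    (L : Type) [Field L] [NumberField L] [IsGalois ℚ L] (ζ : L) (hζ : IsPrimitiveRoot ζ p)
    (χ b : Gal(L/ℚ) → ZMod p) (hχ : ∀ g, g ζ = ζ ^ (χ g).val)
    (hbm : ∀ g h, χ g = 1 → χ h = 1 → b (g * h) = b g + b h)
    (hbc : ∀ t g, χ g = 1 → b (t * g * t⁻¹) = (χ t)⁻¹ * b g)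
    (hinj : ∀ g, χ g = 1 → b g = 0 → g = 1) (hne : ∃ g, χ g = 1 ∧ b g ≠ 0)
    (hunr : ∀ P : Ideal (𝓞 L), P.IsPrime → P ≠ ⊥ → ∀ g : Gal(L/ℚ), χ g = 1 →
        (∀ x : 𝓞 L, g • x - x ∈ P) → g = 1) : False := by
  classical
  have hp : p.Prime := Fact.out
  have : NeZero p := ⟨hp.ne_zero⟩
  obtain ⟨g₀, hg₀, hbg₀⟩ := hne
  -- FROB: a prime `q ≠ p`, a prime `P ∣ q` of `L` whose Frobenius `τ` generates `⟨g₀⟩`
  obtain ⟨q, P, τ, hq, hqS, hP, hqP, -, hτ, hzp⟩ := hF L g₀ {p} (Set.finite_singleton p)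
  have hqp : q ≠ p := by simpa using hqS
  have hτmem : τ ∈ Subgroup.zpowers g₀ := by rw [← hzp]; exact Subgroup.mem_zpowers τ
  have hgmem : g₀ ∈ Subgroup.zpowers τ := by rw [hzp]; exact Subgroup.mem_zpowers g₀
  rw [← mem_powers_iff_mem_zpowers] at hτmem hgmem
  obtain ⟨k, hk⟩ := hτmem
  obtain ⟨m, hm⟩ := hgmem
  have hk' : g₀ ^ k = τ := hk
  have hm' : τ ^ m = g₀ := hm
  have hχτ : χ τ = 1 := by rw [← hk']; exact (b_pow hζ hχ hbm g₀ hg₀ k).1
  have hbτ : b τ ≠ 0 := by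
    intro h0
    apply hbg₀
    rw [← hm', (b_pow hζ hχ hbm τ hχτ m).2, h0, mul_zero]
  -- the cyclotomic field `K = ℚ(ζ)` inside `L`
  have hcyc : IsCyclotomicExtension {p} ℚ (IntermediateField.adjoin ℚ {ζ}) :=
    isCyclotomicExtension_adjoin hζ
  have : IsGalois ℚ (IntermediateField.adjoin ℚ {ζ}) :=
    IsCyclotomicExtension.isGalois {p} ℚ (IntermediateField.adjoin ℚ {ζ})
  have hdeg : Module.finrank (IntermediateField.adjoin ℚ {ζ}) L = p :=
    finrank_adjoin hζ hχ hbm hinj ⟨g₀, hg₀, hbg₀⟩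
  have hunr' : ∀ Q : Ideal (𝓞 L), Q.IsPrime → Q ≠ ⊥ →
      Q.inertia Gal(L/(IntermediateField.adjoin ℚ {ζ})) = ⊥ :=
    fun Q hQ hQ0 => inertia_adjoin_eq_bot hζ hχ hunr Q hQ hQ0
  -- the primitive root as an element of `K`
  let ζK : IntermediateField.adjoin ℚ {ζ} :=
    ⟨ζ, IntermediateField.subset_adjoin ℚ {ζ} (Set.mem_singleton ζ)⟩
  have hζK : IsPrimitiveRoot ζK p :=
    IsPrimitiveRoot.of_map_of_injective (f := algebraMap (IntermediateField.adjoin ℚ {ζ}) L)
      hζ (algebraMap (IntermediateField.adjoin ℚ {ζ}) L).injective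
  -- the degree one prime `𝔮 = P ∩ K`
  have := hP
  set 𝔮 : Ideal (𝓞 (IntermediateField.adjoin ℚ {ζ})) :=
    P.under (𝓞 (IntermediateField.adjoin ℚ {ζ})) with h𝔮
  have hN𝔮 : Ideal.absNorm 𝔮 = q := absNorm_under_adjoin hζ hχ hq P hqP τ hτ hχτ
  have h𝔮prime : 𝔮.IsPrime := Ideal.IsPrime.under _ P
  -- the automorphisms `t c` with `χ (t c) = c⁻¹`
  have hexu : ∀ c : ℕ, ∃ t : Gal(L/ℚ), c ∈ Stickelberger.exponentSet p → (χ t) * (c : ZMod p) = 1 := by
    intro c
    by_cases hc : c ∈ Stickelberger.exponentSet p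
    · rw [Stickelberger.mem_exponentSet] at hc
      have hc0 : (c : ZMod p) ≠ 0 := by
        rw [Ne, ZMod.natCast_eq_zero_iff]
        intro hdvd
        have := Nat.le_of_dvd hc.1 hdvd
        omega
      obtain ⟨t, ht⟩ := exists_chi_eq hζ hχ (Units.mk0 (c : ZMod p) hc0)⁻¹
      refine ⟨t, fun _ => ?_⟩
      rw [ht, Units.val_inv_eq_inv_val, Units.val_mk0]
      exact inv_mul_cancel₀ hc0
    · exact ⟨1, fun h => absurd h hc⟩
  choose t ht using hexu
  let τK : ℕ → ((IntermediateField.adjoin ℚ {ζ}) ≃ₐ[ℚ] (IntermediateField.adjoin ℚ {ζ})) :=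
    fun c => AlgEquiv.restrictNormalHom (IntermediateField.adjoin ℚ {ζ}) (t c)
  have hτK : ∀ c ∈ Stickelberger.exponentSet p, (τK c ζK) ^ c = ζK := by
    intro c hc
    apply (algebraMap (IntermediateField.adjoin ℚ {ζ}) L).injective
    rw [map_pow]
    have h1 : algebraMap (IntermediateField.adjoin ℚ {ζ}) L (τK c ζK) = t c ζ :=
      AlgEquiv.restrictNormal_commutes (t c) (IntermediateField.adjoin ℚ {ζ}) ζK
    rw [h1, hχ (t c), ← pow_mul]
    have h2 : algebraMap (IntermediateField.adjoin ℚ {ζ}) L ζK = ζ := rfl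
    rw [h2]
    have h3 : ((χ (t c)).val * c : ℕ) ≡ 1 [MOD p] := by
      rw [← ZMod.natCast_eq_natCast_iff]
      push_cast
      rw [ZMod.natCast_zmod_val]
      exact ht c hc
    have h4 : (χ (t c)).val * c % p = 1 := by
      rw [h3, Nat.mod_eq_of_lt hp.one_lt]
    rw [← Nat.div_add_mod ((χ (t c)).val * c) p, h4, pow_add, pow_mul, hζ.pow_eq_one, one_pow,
      one_mul, pow_one]
  -- STICK
  obtain ⟨J, -, hJ⟩ := Stick.exists_jacobi_generator hp2 hζK 𝔮 hq hqp hN𝔮 τK hτK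
  -- the conjugates
  have hconj : ∀ c : ℕ, (t c • P).under (𝓞 (IntermediateField.adjoin ℚ {ζ})) =
      𝔮.map (galRestrict ℤ ℚ (IntermediateField.adjoin ℚ {ζ})
        (𝓞 (IntermediateField.adjoin ℚ {ζ})) (τK c)) := fun c => under_smul_adjoin (t c) P
  have hχconj : ∀ c : ℕ, χ (t c * τ * (t c)⁻¹) = 1 := by
    intro c
    have h1 : χ (t c) * χ (t c)⁻¹ = 1 := by
      rw [← chi_mul hζ hχ, mul_inv_cancel, chi_one hζ hχ]
    rw [chi_mul hζ hχ, chi_mul hζ hχ, hχτ, mul_one, h1]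
  have hexσ : ∀ c : ℕ, ∃ σ : Gal(L/(IntermediateField.adjoin ℚ {ζ})),
      σ.restrictScalars ℚ = t c * τ * (t c)⁻¹ :=
    fun c => exists_restrictScalars_eq hζ hχ _ (hχconj c)
  choose σ hσ using hexσ
  obtain ⟨β, hβ⟩ := exists_beta (ζ := ζ) (b := b) hζ hχ hbm
  -- RECIP
  have hprimeT : ∀ c : ℕ, (t c • P).IsPrime := fun c => by
    rw [Ideal.pointwise_smul_eq_comap]
    exact Ideal.IsPrime.comap _
  have hrecip := hR (IntermediateField.adjoin ℚ {ζ}) L hdeg hunr' q hq hqp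
    (ι := ↥(Stickelberger.exponentSet p))
    (fun c => 𝔮.map (galRestrict ℤ ℚ (IntermediateField.adjoin ℚ {ζ})
        (𝓞 (IntermediateField.adjoin ℚ {ζ})) (τK c)))
    (fun c => by
      rw [← hconj c]
      have := hprimeT c
      exact Ideal.IsPrime.under _ _)
    (fun c => (Stick.absNorm_map_galRestrict 𝔮 (τK c)).trans hN𝔮)
    J (by rw [← hJ]; exact (Finset.prod_coe_sort (Stickelberger.exponentSet p)
      (fun c => 𝔮.map (galRestrict ℤ ℚ (IntermediateField.adjoin ℚ {ζ})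
        (𝓞 (IntermediateField.adjoin ℚ {ζ})) (τK c)))))
    (fun c => σ c)
    (fun c => by
      have := hprimeT c
      refine ⟨t c • P, hprimeT c, hconj c, ?_⟩
      have hqP' : (q : 𝓞 L) ∈ t c • P := by
        have h1 : t c • (q : 𝓞 L) ∈ t c • P := Ideal.smul_mem_pointwise_smul _ _ _ hqP
        rwa [show t c • (q : 𝓞 L) = q from
          map_natCast (MulSemiringAction.toRingHom Gal(L/ℚ) (𝓞 L) (t c)) q] at h1
      have hfrob : IsArithFrobAt ℤ ((σ c).restrictScalars ℚ) (t c • P) := by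
        rw [hσ c]
        exact hτ.conj (t c)
      refine isArithFrobAt_adjoin hq (t c • P) hqP' (σ c) hfrob ?_
      rw [hconj c]
      exact (Stick.absNorm_map_galRestrict 𝔮 (τK c)).trans hN𝔮)
    β
  -- evaluate
  have hsum : ∑ c ∈ Stickelberger.exponentSet p, (c : ZMod p) * b τ = 0 := by
    have h1 : ∀ c : ↥(Stickelberger.exponentSet p),
        β (σ c) = Multiplicative.ofAdd ((c : ℕ) * b τ : ZMod p) := by
      intro c
      rw [hβ, hσ, hbc _ _ hχτ, inv_eq_of_mul_eq_one_right (ht c c.2)]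
    rw [Finset.prod_congr rfl (fun c _ => h1 c), ← ofAdd_sum] at hrecip
    have h4 : (∑ c : ↥(Stickelberger.exponentSet p), ((c : ℕ) * b τ : ZMod p)) = 0 :=
      Multiplicative.ofAdd.injective hrecip
    rw [← h4]
    exact (Finset.sum_coe_sort (Stickelberger.exponentSet p) (fun c => (c : ZMod p) * b τ)).symm
  rw [← Finset.sum_mul] at hsum
  rcases mul_eq_zero.mp hsum with h | h
  · exact sum_exponentSet_ne_zero hp2 h
  · exact hbτ h

end

end Fermat.Agent.CFT.Core
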